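/-
S28 (Igusa), bridge lemmas (helper5, claim #694): rank descent for Laurent series along a field
extension of the coefficient field, and the resulting transfer of `k[x]`-linear independence.
Mathlib + prelude only.
-/
import Mathlib
import Fermat.Prelude.Def_ModularCurve_LaurentCoeff
import Fermat.Prelude.Def_ModularCurve_X0
import Fermat.Prelude.Def_ModularCurve_JqCoeff
import Fermat.Prelude.Thm_ModularCurve_coeffMap_qExpand

set_option autoImplicit false

open ModularCurve Polynomial

namespace Fermat.Agent.S28

/-! ### generalities on `coeffMap` -/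

section CoeffMapBasics

variable {R S : Type*} [CommRing R] [CommRing S]

theorem bd_coeffMap_injective {f : R →+* S} (hf : Function.Injective f) :
    Function.Injective (coeffMap f) := by
  intro x y h
  ext k
  apply hf
  rw [← coeffMap_coeff, ← coeffMap_coeff, h]

theorem bd_coeffMap_C (f : R →+* S) (c : R) :
    coeffMap f (HahnSeries.C c) = HahnSeries.C (f c) := by
  rw [HahnSeries.C_apply, HahnSeries.C_apply, coeffMap_single]

/-- the (power series) algebra structure on `R((q))` has `algebraMap = C` -/
theorem bd_algebraMap_eq_C (c : R) : algebraMap R (LaurentSeries R) c = HahnSeries.C c := by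
  have h1 : algebraMap R (PowerSeries R) c = PowerSeries.C c := by simp
  rw [HahnSeries.algebraMap_apply', h1, HahnSeries.ofPowerSeries_C]

theorem bd_coeffMap_algebraMap (f : R →+* S) (c : R) :
    coeffMap f (algebraMap R (LaurentSeries R) c) = algebraMap S (LaurentSeries S) (f c) := by
  rw [bd_algebraMap_eq_C, bd_algebraMap_eq_C, bd_coeffMap_C]

/-- `coeffMap` commutes with evaluating polynomials. -/
theorem bd_coeffMap_aeval (f : R →+* S) (x : LaurentSeries R) (p : R[X]) :
    coeffMap f (aeval x p) = aeval (coeffMap f x) (p.map f) := by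
  rw [aeval_def, aeval_def, eval₂_map, hom_eval₂]
  congr 1
  exact RingHom.ext fun c => bd_coeffMap_algebraMap f c

theorem bd_coeff_C_mul (c : R) (x : LaurentSeries R) (k : ℤ) :
    (HahnSeries.C c * x).coeff k = c * x.coeff k := by
  rw [HahnSeries.C_apply, HahnSeries.coeff_single_mul, sub_zero]

end CoeffMapBasics

/-! ### rank descent -/

section Descent

variable {k K : Type*} [Field k] [Field K]

/-- **Rank descent.** Let `f : k → K` be a homomorphism of fields.  A `K`-linear relation among
the images in `K((q))` of finitely many Laurent series with coefficients in `k`, with a nonzero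
coefficient at `i₀`, yields a `k`-linear relation with a nonzero coefficient at `i₀`.
(Generic version of `S24.br_exists_rel_of_complex_rel`.) -/
theorem bd_exists_rel_of_rel (f : k →+* K) {I : Type*} (s : Finset I)
    (v : I → LaurentSeries k) (lam : I → K) (i₀ : I) (h0 : lam i₀ ≠ 0)
    (h : ∑ i ∈ s, HahnSeries.C (lam i) * coeffMap f (v i) = 0) :
    ∃ μ : I → k, μ i₀ ≠ 0 ∧ ∑ i ∈ s, HahnSeries.C (μ i) * v i = 0 := by
  let _ : Algebra k K := f.toAlgebra
  obtain ⟨φ, hφ⟩ : ∃ φ : Module.Dual k K, φ (lam i₀) ≠ 0 := by
    by_contra hcon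
    simp only [not_exists, not_not] at hcon
    exact h0 ((Module.forall_dual_apply_eq_zero_iff k (lam i₀)).mp hcon)
  refine ⟨fun i => φ (lam i), hφ, ?_⟩
  ext n
  rw [HahnSeries.coeff_sum, HahnSeries.coeff_zero]
  have hk := congrArg (fun x : LaurentSeries K => x.coeff n) h
  simp only [HahnSeries.coeff_sum, HahnSeries.coeff_zero] at hk
  have hk2 : ∑ i ∈ s, (v i).coeff n • lam i = 0 := by
    rw [← hk]
    refine Finset.sum_congr rfl fun i _ => ?_
    rw [bd_coeff_C_mul, coeffMap_coeff, Algebra.smul_def, mul_comm]
    rfl
  have hk3 := congrArg φ hk2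
  rw [map_sum, map_zero] at hk3
  rw [← hk3]
  refine Finset.sum_congr rfl fun i _ => ?_
  rw [bd_coeff_C_mul, map_smul, smul_eq_mul, mul_comm]

/-- Linear independence over `k` of Laurent series with coefficients in `k` is preserved by
extending the coefficient field. -/
theorem bd_linearIndependent_coeffMap (f : k →+* K) {I : Type*} {v : I → LaurentSeries k}
    (hv : LinearIndependent k v) : LinearIndependent K (fun i => coeffMap f (v i)) := by
  classical
  rw [linearIndependent_iff'] at hv ⊢
  intro s g hg i hi
  by_contra hgi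
  have h : ∑ j ∈ s, HahnSeries.C (g j) * coeffMap f (v j) = 0 := by
    rw [← hg]
    exact Finset.sum_congr rfl fun j _ => HahnSeries.C_mul_eq_smul
  obtain ⟨μ, hμ, hrel⟩ := bd_exists_rel_of_rel f s v g i hgi h
  refine hμ (hv s μ ?_ i hi)
  rw [← hrel]
  exact Finset.sum_congr rfl fun j _ => HahnSeries.C_mul_eq_smul.symm

end Descent

end Fermat.Agent.S28
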