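/-
S28 (Igusa), bridge lemmas (helper5, claim #694): linear independence over `R[x]` of finite
families of Laurent series ("polynomial independence"), its behaviour under change of the
coefficient ring (descent along field extensions = rank descent; ascent along injective maps),
under injective ring homomorphisms such as `qExpand`, and the link with degrees of minimal
polynomials.  In particular helper7's hypothesis (HC) over `ZMod ℓ` follows from the corresponding
statement over any field of characteristic `ℓ`, in any variable `t = q^{1/M}`.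
-/
import Mathlib
import Fermat.Prelude.Def_ModularCurve_X0ModL
import Fermat.Agent.S28.Bridge.Descent

set_option autoImplicit false

open ModularCurve Polynomial

namespace Fermat.Agent.S28

/-! ### the predicate -/

section Defs

variable (R : Type*) [CommRing R] {A : Type*} [CommRing A] [Algebra R A]

/-- The finite family `w` is linearly independent over `R[x]` (polynomial coefficients). -/
def bd_PolyIndepFam (x : A) {ι : Type*} [Fintype ι] (w : ι → A) : Prop :=
  ∀ a : ι → R[X], (∑ i, aeval x (a i) * w i = 0) → a = 0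

/-- `1, y, …, y^(n-1)` are linearly independent over `R[x]`; this is literally the shape of the
front-end hypothesis (HC). -/
def bd_PolyIndep (x y : A) (n : ℕ) : Prop :=
  ∀ a : Fin n → R[X], (∑ i, aeval x (a i) * y ^ (i : ℕ) = 0) → a = 0

theorem bd_polyIndep_iff_fam (x y : A) (n : ℕ) :
    bd_PolyIndep R x y n ↔ bd_PolyIndepFam R x (fun i : Fin n => y ^ (i : ℕ)) := Iff.rfl

end Defs

/-! ### transport along ring homomorphisms of the ambient algebra -/

section RingHom

variable {R : Type*} [CommRing R] {A B : Type*} [CommRing A] [CommRing B] [Algebra R A]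
  [Algebra R B]

theorem bd_map_aeval (φ : A →+* B) (hφ : ∀ r, φ (algebraMap R A r) = algebraMap R B r) (x : A)
    (p : R[X]) : φ (aeval x p) = aeval (φ x) p := by
  rw [aeval_def, aeval_def, hom_eval₂]
  congr 1
  exact RingHom.ext hφ

theorem bd_polyIndepFam_of_ringHom (φ : A →+* B)
    (hφ : ∀ r, φ (algebraMap R A r) = algebraMap R B r) {x : A} {ι : Type*} [Fintype ι]
    {w : ι → A} (h : bd_PolyIndepFam R (φ x) (fun i => φ (w i))) : bd_PolyIndepFam R x w := by
  intro a ha
  refine h a ?_
  have := congrArg φ ha
  rw [map_sum, map_zero] at this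
  rw [← this]
  exact Finset.sum_congr rfl fun i _ => by rw [map_mul, bd_map_aeval φ hφ]

theorem bd_polyIndepFam_ringHom (φ : A →+* B)
    (hφ : ∀ r, φ (algebraMap R A r) = algebraMap R B r) (hinj : Function.Injective φ) {x : A}
    {ι : Type*} [Fintype ι] {w : ι → A} (h : bd_PolyIndepFam R x w) :
    bd_PolyIndepFam R (φ x) (fun i => φ (w i)) := by
  intro a ha
  refine h a (hinj ?_)
  rw [map_sum, map_zero, ← ha]
  exact Finset.sum_congr rfl fun i _ => by rw [map_mul, bd_map_aeval φ hφ]

theorem bd_polyIndep_of_ringHom (φ : A →+* B)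
    (hφ : ∀ r, φ (algebraMap R A r) = algebraMap R B r) {x y : A} {n : ℕ}
    (h : bd_PolyIndep R (φ x) (φ y) n) : bd_PolyIndep R x y n := by
  rw [bd_polyIndep_iff_fam] at h ⊢
  refine bd_polyIndepFam_of_ringHom φ hφ ?_
  simpa only [map_pow] using h

theorem bd_polyIndep_ringHom (φ : A →+* B)
    (hφ : ∀ r, φ (algebraMap R A r) = algebraMap R B r) (hinj : Function.Injective φ) {x y : A}
    {n : ℕ} (h : bd_PolyIndep R x y n) : bd_PolyIndep R (φ x) (φ y) n := by
  rw [bd_polyIndep_iff_fam] at h ⊢
  simpa only [map_pow] using bd_polyIndepFam_ringHom φ hφ hinj h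

theorem bd_qExpand_algebraMap (N : ℕ) [NeZero N] (r : R) :
    qExpand R N (algebraMap R (LaurentSeries R) r) = algebraMap R (LaurentSeries R) r := by
  rw [bd_algebraMap_eq_C, qExpand_C]

/-- independence may be tested after the substitution `q ↦ q^N` -/
theorem bd_polyIndep_qExpand_iff (N : ℕ) [NeZero N] {x y : LaurentSeries R} {n : ℕ} :
    bd_PolyIndep R (qExpand R N x) (qExpand R N y) n ↔ bd_PolyIndep R x y n :=
  ⟨bd_polyIndep_of_ringHom (qExpand R N) (bd_qExpand_algebraMap N),
    bd_polyIndep_ringHom (qExpand R N) (bd_qExpand_algebraMap N) (qExpand_injective N)⟩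

theorem bd_polyIndepFam_qExpand_iff (N : ℕ) [NeZero N] {x : LaurentSeries R} {ι : Type*}
    [Fintype ι] {w : ι → LaurentSeries R} :
    bd_PolyIndepFam R (qExpand R N x) (fun i => qExpand R N (w i)) ↔ bd_PolyIndepFam R x w :=
  ⟨bd_polyIndepFam_of_ringHom (qExpand R N) (bd_qExpand_algebraMap N),
    bd_polyIndepFam_ringHom (qExpand R N) (bd_qExpand_algebraMap N) (qExpand_injective N)⟩

end RingHom

/-! ### monotonicity -/

section Mono

variable {R : Type*} [CommRing R] {A : Type*} [CommRing A] [Algebra R A]

theorem bd_polyIndep_mono {x y : A} {m n : ℕ} (hmn : m ≤ n) (h : bd_PolyIndep R x y n) :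
    bd_PolyIndep R x y m := by
  intro a ha
  set g : ℕ → A := fun i => if hi : i < m then aeval x (a ⟨i, hi⟩) * y ^ i else 0 with hg
  have key := h (fun i => if hi : (i : ℕ) < m then a ⟨i, hi⟩ else 0) ?_
  · funext i
    have := congrFun key (Fin.castLE hmn i)
    simpa using this
  · have h1 : ∀ i : Fin n, aeval x (if hi : (i : ℕ) < m then a ⟨i, hi⟩ else 0) * y ^ (i : ℕ)
        = g i := by
      intro i
      by_cases hi : (i : ℕ) < m
      · simp only [hg, dif_pos hi]
      · simp only [hg, dif_neg hi, map_zero, zero_mul]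
    have h2 : ∀ i : Fin m, aeval x (a i) * y ^ (i : ℕ) = g i := by
      intro i
      simp only [hg, dif_pos i.2]
    rw [Finset.sum_congr rfl fun i _ => h1 i, Fin.sum_univ_eq_sum_range g n]
    rw [Finset.sum_congr rfl fun i _ => h2 i, Fin.sum_univ_eq_sum_range g m] at ha
    rw [← ha]
    symm
    refine Finset.sum_subset (Finset.range_subset_range.mpr hmn) fun i _ hi => ?_
    rw [Finset.mem_range] at hi
    simp only [hg, dif_neg hi]

end Mono

/-! ### change of the coefficient ring -/

section Ascent

variable {R S : Type*} [CommRing R] [CommRing S]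

/-- easy direction: independence over a bigger coefficient ring implies independence over the
smaller one -/
theorem bd_polyIndepFam_of_coeffMap {f : R →+* S} (hf : Function.Injective f)
    {x : LaurentSeries R} {ι : Type*} [Fintype ι] {w : ι → LaurentSeries R}
    (h : bd_PolyIndepFam S (coeffMap f x) (fun i => coeffMap f (w i))) :
    bd_PolyIndepFam R x w := by
  intro a ha
  have key := h (fun i => (a i).map f) ?_
  · funext i
    apply Polynomial.map_injective f hf
    rw [Pi.zero_apply, Polynomial.map_zero]
    exact congrFun key i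
  · have := congrArg (coeffMap f) ha
    rw [map_sum, map_zero] at this
    rw [← this]
    exact Finset.sum_congr rfl fun i _ => by rw [map_mul, bd_coeffMap_aeval]

theorem bd_polyIndep_of_coeffMap {f : R →+* S} (hf : Function.Injective f)
    {x y : LaurentSeries R} {n : ℕ}
    (h : bd_PolyIndep S (coeffMap f x) (coeffMap f y) n) : bd_PolyIndep R x y n := by
  rw [bd_polyIndep_iff_fam] at h ⊢
  refine bd_polyIndepFam_of_coeffMap hf ?_
  simpa only [map_pow] using h

end Ascent

section DescentPoly

variable {k K : Type*} [Field k] [Field K]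

/-- **rank descent, polynomial form**: independence over `k[x]` of a finite family of Laurent
series with coefficients in the field `k` persists over `K[x]` after extending the coefficient
field to `K`. -/
theorem bd_polyIndepFam_coeffMap (f : k →+* K) {x : LaurentSeries k} {ι : Type*} [Fintype ι]
    {w : ι → LaurentSeries k} (h : bd_PolyIndepFam k x w) :
    bd_PolyIndepFam K (coeffMap f x) (fun i => coeffMap f (w i)) := by
  classical
  intro a ha
  by_contra hne
  obtain ⟨i₀, hi₀⟩ : ∃ i, a i ≠ 0 := by
    by_contra hcon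
    push Not at hcon
    exact hne (funext hcon)
  obtain ⟨m₀, hm₀⟩ : ∃ m, (a i₀).coeff m ≠ 0 := by
    by_contra hcon
    push Not at hcon
    exact hi₀ (Polynomial.ext fun m => by rw [hcon m, coeff_zero])
  set D : ℕ := (Finset.univ.sup fun i => (a i).natDegree) + 1 with hD
  have hdeg : ∀ i, (a i).natDegree < D := fun i =>
    Nat.lt_succ_of_le (Finset.le_sup (f := fun i => (a i).natDegree) (Finset.mem_univ i))
  have hm₀D : m₀ < D := lt_of_le_of_lt (le_natDegree_of_ne_zero hm₀) (hdeg i₀)
  set s : Finset (ι × ℕ) := Finset.univ ×ˢ Finset.range D with hs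
  have hrel : ∑ p ∈ s, HahnSeries.C ((a p.1).coeff p.2) *
      coeffMap f (x ^ p.2 * w p.1) = 0 := by
    rw [hs, Finset.sum_product, ← ha]
    refine Finset.sum_congr rfl fun i _ => ?_
    rw [aeval_eq_sum_range' (hdeg i), Finset.sum_mul]
    refine Finset.sum_congr rfl fun m _ => ?_
    rw [Algebra.smul_def, bd_algebraMap_eq_C, map_mul, map_pow, mul_assoc]
  obtain ⟨μ, hμ, hμrel⟩ := bd_exists_rel_of_rel f s (fun p => x ^ p.2 * w p.1)
    (fun p => (a p.1).coeff p.2) (i₀, m₀) hm₀ hrel
  set b : ι → k[X] := fun i => ∑ m ∈ Finset.range D, monomial m (μ (i, m)) with hb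
  have hbcoeff : ∀ i m, m < D → (b i).coeff m = μ (i, m) := by
    intro i m hm
    simp only [hb, finsetSum_coeff, coeff_monomial]
    rw [Finset.sum_ite_eq' (Finset.range D) m, if_pos (Finset.mem_range.mpr hm)]
  have hb0 : b = 0 := by
    refine h b ?_
    rw [← hμrel, hs, Finset.sum_product]
    refine Finset.sum_congr rfl fun i _ => ?_
    simp only [hb, map_sum, aeval_monomial, Finset.sum_mul]
    refine Finset.sum_congr rfl fun m _ => ?_
    rw [bd_algebraMap_eq_C, mul_assoc]
  apply hμ
  rw [← hbcoeff i₀ m₀ hm₀D, hb0, Pi.zero_apply, coeff_zero]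

theorem bd_polyIndep_coeffMap (f : k →+* K) {x y : LaurentSeries k} {n : ℕ}
    (h : bd_PolyIndep k x y n) : bd_PolyIndep K (coeffMap f x) (coeffMap f y) n := by
  rw [bd_polyIndep_iff_fam] at h ⊢
  simpa only [map_pow] using bd_polyIndepFam_coeffMap f h

theorem bd_polyIndep_coeffMap_iff (f : k →+* K) {x y : LaurentSeries k} {n : ℕ} :
    bd_PolyIndep K (coeffMap f x) (coeffMap f y) n ↔ bd_PolyIndep k x y n :=
  ⟨bd_polyIndep_of_coeffMap f.injective, bd_polyIndep_coeffMap f⟩

theorem bd_polyIndepFam_coeffMap_iff (f : k →+* K) {x : LaurentSeries k} {ι : Type*} [Fintype ι]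
    {w : ι → LaurentSeries k} :
    bd_PolyIndepFam K (coeffMap f x) (fun i => coeffMap f (w i)) ↔ bd_PolyIndepFam k x w :=
  ⟨bd_polyIndepFam_of_coeffMap f.injective, bd_polyIndepFam_coeffMap f⟩

end DescentPoly

/-! ### descent of membership in `k(x, y)` -/

section Membership

variable {k K : Type*} [Field k] [Field K]

theorem bd_aeval_mem_adjoin (x y : LaurentSeries k) (p : k[X]) :
    aeval x p ∈ IntermediateField.adjoin k {x, y} := by
  refine IntermediateField.algebra_adjoin_le_adjoin k {x, y} ?_
  exact Algebra.adjoin_mono (Set.singleton_subset_iff.mpr (Set.mem_insert x {y}))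
    (aeval_mem_adjoin_singleton k x)

theorem bd_sum_mem_adjoin (x y : LaurentSeries k) {n : ℕ} (a : Fin n → k[X]) :
    ∑ i, aeval x (a i) * y ^ (i : ℕ) ∈ IntermediateField.adjoin k {x, y} := by
  refine sum_mem fun i _ => mul_mem (bd_aeval_mem_adjoin x y (a i)) (pow_mem ?_ _)
  exact IntermediateField.subset_adjoin k _ (Set.mem_insert_of_mem x rfl)

/-- **descent of membership**: if `1, y, …, y^(n-1)` are independent over `k[x]` and, after
extending the coefficient field to `K`, the series `z` satisfies `B(x,y) z = G(x,y)` with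
`B ≠ 0`, `B, G` of `y`-degree `< n` with coefficients in `K[x]`, then `z ∈ k(x, y)`. -/
theorem bd_mem_adjoin_of_rel (f : k →+* K) {x y z : LaurentSeries k} {n : ℕ}
    (hind : bd_PolyIndep k x y n) (b g : Fin n → K[X]) (hb : b ≠ 0)
    (hrel : (∑ i, aeval (coeffMap f x) (b i) * coeffMap f y ^ (i : ℕ)) * coeffMap f z
      = ∑ i, aeval (coeffMap f x) (g i) * coeffMap f y ^ (i : ℕ)) :
    z ∈ IntermediateField.adjoin k {x, y} := by
  classical
  set w : Fin n ⊕ Fin n → LaurentSeries k :=
    Sum.elim (fun i => y ^ (i : ℕ) * z) (fun i => y ^ (i : ℕ)) with hw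
  have hnot : ¬ bd_PolyIndepFam k x w := by
    intro hfam
    have hK := bd_polyIndepFam_coeffMap f hfam
    have h0 := hK (Sum.elim b (fun i => - g i)) ?_
    · apply hb
      funext i
      exact congrFun h0 (Sum.inl i)
    · rw [Fintype.sum_sum_type]
      simp only [hw, Sum.elim_inl, Sum.elim_inr, map_mul, map_pow, map_neg, neg_mul,
        Finset.sum_neg_distrib]
      rw [← hrel, Finset.sum_mul, add_neg_eq_zero]
      exact Finset.sum_congr rfl fun i _ => (mul_assoc _ _ _).symm
  simp only [bd_PolyIndepFam, not_forall] at hnot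
  obtain ⟨a', ha', hne⟩ := hnot
  rw [Fintype.sum_sum_type] at ha'
  simp only [hw, Sum.elim_inl, Sum.elim_inr] at ha'
  set B' := ∑ i, aeval x (a' (Sum.inl i)) * y ^ (i : ℕ) with hB'
  set G' := ∑ i, aeval x (a' (Sum.inr i)) * y ^ (i : ℕ) with hG'
  have hBG : B' * z + G' = 0 := by
    rw [← ha', hB', Finset.sum_mul]
    congr 1
    exact Finset.sum_congr rfl fun i _ => mul_assoc _ _ _
  have hB0 : B' ≠ 0 := by
    intro hB
    have hG : G' = 0 := by rw [hB, zero_mul, zero_add] at hBG; exact hBG
    have h1 := hind (fun i => a' (Sum.inl i)) hB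
    have h2 := hind (fun i => a' (Sum.inr i)) hG
    apply hne
    funext i
    rcases i with i | i
    · exact congrFun h1 i
    · exact congrFun h2 i
  have hz : z = - G' / B' := by
    rw [eq_div_iff hB0, eq_neg_iff_add_eq_zero, mul_comm]
    exact hBG
  rw [hz]
  exact div_mem (neg_mem (bd_sum_mem_adjoin x y _)) (bd_sum_mem_adjoin x y _)

end Membership

/-! ### degrees of minimal polynomials -/

section Minpoly

variable {K F E : Type*} [Field K] [Field F] [Field E] [Algebra K F] [Algebra F E] [Algebra K E]
  [IsScalarTower K F E]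

/-- If `F` is any field between `K(x)` and `E` (e.g. `F = K⟮x⟯`, or a fraction field of `K[x]`)
and the minimal polynomial of `y` over `F` has degree at least `n`, then `1, y, …, y^(n-1)` are
linearly independent over `K[x]`. -/
theorem bd_polyIndep_of_le_natDegree_minpoly (x' : F) {y : E}
    (hx : Transcendental K (algebraMap F E x')) {n : ℕ} (hn : n ≤ (minpoly F y).natDegree) :
    bd_PolyIndep K (algebraMap F E x') y n := by
  intro a ha
  set p : F[X] := ∑ i : Fin n, C (aeval x' (a i)) * X ^ (i : ℕ) with hp
  have hpy : aeval y p = 0 := by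
    rw [hp, map_sum, ← ha]
    refine Finset.sum_congr rfl fun i _ => ?_
    rw [map_mul, aeval_C, map_pow, aeval_X, aeval_algebraMap_apply]
  have hpcoeff : ∀ i : Fin n, p.coeff i = aeval x' (a i) := by
    intro i
    simp only [hp, finsetSum_coeff, coeff_C_mul, coeff_X_pow]
    rw [Finset.sum_eq_single i]
    · simp
    · intro j _ hji
      rw [if_neg (fun h => hji (Fin.ext h.symm)), mul_zero]
    · intro h
      exact absurd (Finset.mem_univ i) h
  have hp0 : p = 0 := by
    by_contra hne
    have h1 := natDegree_le_natDegree (minpoly.degree_le_of_ne_zero F y hne hpy)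
    have h2 : p.natDegree < n := by
      rcases Nat.eq_zero_or_pos n with h0 | hpos
      · subst h0
        exact absurd (by simp [hp]) hne
      · rw [hp]
        refine lt_of_le_of_lt (natDegree_sum_le_of_forall_le _ _ (n := n - 1) fun i _ => ?_)
          (by omega)
        refine (natDegree_C_mul_X_pow_le _ _).trans ?_
        have := i.2
        omega
    omega
  funext i
  have h3 : aeval x' (a i) = 0 := by rw [← hpcoeff i, hp0, coeff_zero]
  have h4 : aeval (algebraMap F E x') (a i) = 0 := by
    rw [aeval_algebraMap_apply, h3, map_zero]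
  exact (transcendental_iff.mp hx) (a i) h4

end Minpoly

/-! ### the front-end hypothesis (HC) -/

section HC

/-- **helper7's (HC) over the prime field** from the corresponding independence statement over any
field `K` of characteristic `ℓ`, in the variable `t = q^(1/M)`. -/
theorem bd_HC_of_polyIndep (l : ℕ) [Fact l.Prime] {K : Type*} [Field K] [CharP K l] (N M : ℕ)
    [NeZero N] [NeZero M] {n : ℕ}
    (h : bd_PolyIndep K (qExpand K M (jqModC K)) (qExpand K M (qExpand K N (jqModC K))) n) :
    ∀ a : Fin n → (ZMod l)[X],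
      (∑ i, aeval (jqModC (ZMod l)) (a i) * (qExpand (ZMod l) N (jqModC (ZMod l))) ^ (i : ℕ) = 0) →
        a = 0 := by
  have h1 : bd_PolyIndep K (jqModC K) (qExpand K N (jqModC K)) n :=
    (bd_polyIndep_qExpand_iff M).mp h
  set f : ZMod l →+* K := ZMod.castHom (dvd_refl l) K with hf
  have h2 : bd_PolyIndep (ZMod l) (jqModC (ZMod l)) (qExpand (ZMod l) N (jqModC (ZMod l))) n := by
    refine bd_polyIndep_of_coeffMap f.injective ?_
    rw [coeffMap_qExpand, coeffMap_jqModC]
    exact h1
  exact h2

/-- the same without the auxiliary substitution -/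
theorem bd_HC_of_polyIndep' (l : ℕ) [Fact l.Prime] {K : Type*} [Field K] [CharP K l] (N : ℕ)
    [NeZero N] {n : ℕ} (h : bd_PolyIndep K (jqModC K) (jqNModC K N) n) :
    ∀ a : Fin n → (ZMod l)[X],
      (∑ i, aeval (jqModC (ZMod l)) (a i) * (qExpand (ZMod l) N (jqModC (ZMod l))) ^ (i : ℕ) = 0) →
        a = 0 := by
  refine bd_HC_of_polyIndep (K := K) l N 1 ?_
  rw [qExpand_one_apply, qExpand_one_apply]
  exact h

end HC

end Fermat.Agent.S28
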