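/-
S28 (Igusa), bridge (helper5): the two characteristic-zero inputs of the front end, obtained
UNCONDITIONALLY from the landed S24 library (degree of `X₀(N) → X(1)` over `Q̄` and the family of
Taylor-germ embeddings, which are pairwise distinct already on `j(q^N)`) by rank descent
`Q̄ → ℚ`:

* `bd_polyIndep_rat N`  : `1, j_N, …, j_N^(n-1)` are independent over `ℚ[j]`, `n = [SL₂(ℤ):Γ₀(N)]`;
* `bd_functionFieldGeneration N : ModularCurve.FunctionFieldGeneration N`, i.e.
  `ℚ(j(q^d) : d ∣ N) = ℚ(j, j(q^N))`.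
-/
import Mathlib
import Fermat.Agent.S24.Bridge.Degree
import Fermat.Agent.S28.Bridge.Indep

set_option autoImplicit false

open UpperHalfPlane CongruenceSubgroup ModularCurve Polynomial
open scoped MatrixGroups IntermediateField
open Fermat.Agent.S24 Fermat.Agent.S24.Br

namespace Fermat.Agent.S28

variable (N : ℕ) [NeZero N]

/-- `j(q^N)` as an element of the prelude field over `Q̄` -/
noncomputable abbrev bd_jNF : Fbar N := barGenF N N (dvd_refl N)

theorem bd_jNF_eq : bd_jNF N = algebraMap (A0 N) (Fbar N) (ff_jN N) := rfl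

/-- the Taylor-germ embeddings are pairwise distinct already on `j(q^N)` (this is the proof of
`S24.fam_phi_injective`) -/
theorem bd_ff_phi_jN_injective (z0 : ℍ) (x y : Comb.Q N)
    (h : ff_phi N z0 x (bd_jNF N) = ff_phi N z0 y (bd_jNF N)) : x = y := by
  induction x using Quotient.inductionOn' with
  | h g =>
  induction y using Quotient.inductionOn' with
  | h g' =>
    have h1 : fam_phi0 (F := Fbar N) (ff_isGerm z0) (ff_isRealisation N) g
          (algebraMap (A0 N) (Fbar N) (ff_jN N)) =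
        fam_phi0 (F := Fbar N) (ff_isGerm z0) (ff_isRealisation N) g'
          (algebraMap (A0 N) (Fbar N) (ff_jN N)) := h
    rw [fam_phi0_algebraMap, fam_phi0_algebraMap] at h1
    have h2 := (ff_isGerm z0).inj _ _ ((ff_isRealisation N).adm (ff_jN N) g⁻¹)
      ((ff_isRealisation N).adm (ff_jN N) g'⁻¹) h1
    rw [(ff_isRealisation N).jN] at h2
    have h3 : g⁻¹ * g'⁻¹⁻¹ ∈ Gamma0 N :=
      (jd_smul_eq_iff N g⁻¹ g'⁻¹).mp fun z => congrFun h2 z
    rw [inv_inv] at h3
    exact QuotientGroup.eq.mpr h3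

/-- all the embeddings agree on `j` -/
theorem bd_ff_phi_jF (z0 : ℍ) (x : Comb.Q N) :
    ff_phi N z0 x (ff_jF N) = ff_germ z0 kleinJ := by
  have h := fam_phi_of_invariant (F := Fbar N) (ff_isGerm z0) (ff_isRealisation N) (ff_j1 N)
    (by intro g z; rw [ff_an_j1]; exact kleinJ_smul g z) x
  rw [ff_an_j1] at h
  exact h

/-- all the embeddings agree on `Q̄(j)` -/
theorem bd_ff_phi_agree (z0 : ℍ) (x y : Comb.Q N) (e : Kbar⟮ff_jF N⟯) :
    ff_phi N z0 x (e : Fbar N) = ff_phi N z0 y (e : Fbar N) := by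
  have hle : Kbar⟮ff_jF N⟯ ≤ br_eqLocus (ff_phi N z0 x) (ff_phi N z0 y) := by
    rw [IntermediateField.adjoin_simple_le_iff]
    show ff_phi N z0 x (ff_jF N) = ff_phi N z0 y (ff_jF N)
    rw [bd_ff_phi_jF, bd_ff_phi_jF]
  exact hle e.2

theorem bd_isIntegral_jNF : IsIntegral Kbar⟮ff_jF N⟯ (bd_jNF N) := by
  have := an_finiteDimensional N
  exact IsIntegral.of_finite _ _

/-- **the degree of `j(q^N)` over `Q̄(j)`** is (at least, hence exactly) `[SL₂(ℤ) : Γ₀(N)]` -/
theorem bd_card_le_natDegree_minpoly :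
    Nat.card (Comb.Q N) ≤ (minpoly Kbar⟮ff_jF N⟯ (bd_jNF N)).natDegree := by
  classical
  have hfin : Finite (Comb.Q N) := inferInstance
  have := Fintype.ofFinite (Comb.Q N)
  set z0 : ℍ := UpperHalfPlane.I with hz0
  obtain ⟨x₀⟩ : Nonempty (Comb.Q N) := ⟨((1 : SL(2, ℤ)) : Comb.Q N)⟩
  set P := minpoly Kbar⟮ff_jF N⟯ (bd_jNF N) with hP
  set ψ : Kbar⟮ff_jF N⟯ →+* LaurentSeries ℂ :=
    (ff_phi N z0 x₀ : Fbar N →+* LaurentSeries ℂ).comp (algebraMap Kbar⟮ff_jF N⟯ (Fbar N)) with hψ
  have hmonic : (P.map ψ).Monic := (minpoly.monic (bd_isIntegral_jNF N)).map ψ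
  have hroot : ∀ x : Comb.Q N, (P.map ψ).IsRoot (ff_phi N z0 x (bd_jNF N)) := by
    intro x
    rw [IsRoot.def, eval_map]
    have h1 : ψ = (ff_phi N z0 x : Fbar N →+* LaurentSeries ℂ).comp
        (algebraMap Kbar⟮ff_jF N⟯ (Fbar N)) := by
      exact RingHom.ext fun e => bd_ff_phi_agree N z0 x₀ x e
    rw [h1]
    have h2 := hom_eval₂ P (algebraMap Kbar⟮ff_jF N⟯ (Fbar N))
      (ff_phi N z0 x : Fbar N →+* LaurentSeries ℂ) (bd_jNF N)
    have h3 : eval₂ (algebraMap Kbar⟮ff_jF N⟯ (Fbar N)) (bd_jNF N) P = 0 := by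
      rw [← aeval_def, hP, minpoly.aeval]
    rw [h3, map_zero] at h2
    exact h2.symm
  set Z : Finset (LaurentSeries ℂ) :=
    Finset.univ.image (fun x : Comb.Q N => ff_phi N z0 x (bd_jNF N)) with hZ
  have hZcard : Z.card = Nat.card (Comb.Q N) := by
    rw [hZ, Finset.card_image_of_injective _ (fun x y h => bd_ff_phi_jN_injective N z0 x y h),
      Finset.card_univ, Nat.card_eq_fintype_card]
  have hsub : Z.val ⊆ (P.map ψ).roots := by
    intro r hr
    rw [Finset.mem_val, hZ, Finset.mem_image] at hr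
    obtain ⟨x, -, rfl⟩ := hr
    exact (mem_roots hmonic.ne_zero).mpr (hroot x)
  have h4 := card_le_degree_of_subset_roots hsub
  rw [hZcard, (minpoly.monic (bd_isIntegral_jNF N)).natDegree_map ψ] at h4
  exact h4

/-- the inclusion of the prelude field into `Q̄((q))` -/
noncomputable def bd_incl : Fbar N →+* LaurentSeries Kbar :=
  ((ModularCurve.modularFunctionFieldBar N).val : Fbar N →+* LaurentSeries Kbar)

theorem bd_incl_apply (x : Fbar N) : bd_incl N x = (x : LaurentSeries Kbar) := rfl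

theorem bd_incl_algebraMap (r : Kbar) :
    bd_incl N (algebraMap Kbar (Fbar N) r) = algebraMap Kbar (LaurentSeries Kbar) r := rfl

theorem bd_incl_injective : Function.Injective (bd_incl N) := Subtype.val_injective

theorem bd_barGen_eq (d : ℕ) [NeZero d] :
    barGen d = coeffMap (algebraMap ℚ Kbar) (qExpand ℚ d jq) := rfl

theorem bd_barGen_one_eq : barGen 1 = coeffMap (algebraMap ℚ Kbar) jq := by
  rw [bd_barGen_eq, qExpand_one_apply]

/-- independence of `1, j_N, …, j_N^(n-1)` over `Q̄[j]`, inside the prelude field -/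
theorem bd_polyIndep_Fbar :
    bd_PolyIndep Kbar (ff_jF N) (bd_jNF N) (Nat.card (Comb.Q N)) := by
  have hx : Transcendental Kbar
      (algebraMap Kbar⟮ff_jF N⟯ (Fbar N) (IntermediateField.AdjoinSimple.gen Kbar (ff_jF N))) := by
    rw [IntermediateField.AdjoinSimple.algebraMap_gen]
    exact an_transcendental N
  have h1 := bd_polyIndep_of_le_natDegree_minpoly (K := Kbar) (F := Kbar⟮ff_jF N⟯) (E := Fbar N)
    (IntermediateField.AdjoinSimple.gen Kbar (ff_jF N)) (y := bd_jNF N) hx
    (bd_card_le_natDegree_minpoly N)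
  rw [IntermediateField.AdjoinSimple.algebraMap_gen] at h1
  exact h1

theorem bd_incl_jF : bd_incl N (ff_jF N) = barGen 1 := rfl

theorem bd_incl_jNF : bd_incl N (bd_jNF N) = barGen N := rfl

/-- independence of `1, j_N, …, j_N^(n-1)` over `Q̄[j]` -/
theorem bd_polyIndep_bar :
    bd_PolyIndep Kbar (barGen 1) (barGen N) (Nat.card (Comb.Q N)) := by
  have h2 := bd_polyIndep_ringHom (bd_incl N) (bd_incl_algebraMap N) (bd_incl_injective N)
    (bd_polyIndep_Fbar N)
  rw [bd_incl_jF, bd_incl_jNF] at h2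
  exact h2

/-- **independence of `1, j_N, …, j_N^(n-1)` over `ℚ[j]`**, `n = [SL₂(ℤ) : Γ₀(N)]` -/
theorem bd_polyIndep_rat :
    bd_PolyIndep ℚ jq (qExpand ℚ N jq) (Nat.card (Comb.Q N)) := by
  refine bd_polyIndep_of_coeffMap (f := algebraMap ℚ Kbar) (RingHom.injective _) ?_
  rw [← bd_barGen_one_eq, ← bd_barGen_eq]
  exact bd_polyIndep_bar N

/-! ### generation -/

set_option synthInstance.maxHeartbeats 400000 in
theorem bd_natDegree_minpoly :
    (minpoly Kbar⟮ff_jF N⟯ (bd_jNF N)).natDegree = Nat.card (Comb.Q N) := by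
  refine le_antisymm ?_ (bd_card_le_natDegree_minpoly N)
  have := an_finiteDimensional N
  rw [← an_finrank N]
  exact minpoly.natDegree_le _

theorem bd_card_pos : 0 < Nat.card (Comb.Q N) := Nat.card_pos

set_option synthInstance.maxHeartbeats 400000 in
/-- every element of the prelude field over `Q̄` is a polynomial of degree `< n` in `j(q^N)` with
coefficients in `Q̄(j)` -/
theorem bd_exists_poly (z : Fbar N) :
    ∃ p : (Kbar⟮ff_jF N⟯)[X], p.natDegree < Nat.card (Comb.Q N) ∧ aeval (bd_jNF N) p = z := by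
  have hfd := an_finiteDimensional N
  have hint := bd_isIntegral_jNF N
  have htop : Kbar⟮ff_jF N⟯⟮bd_jNF N⟯ = ⊤ := by
    refine IntermediateField.eq_of_le_of_finrank_le le_top ?_
    rw [IntermediateField.finrank_top', IntermediateField.adjoin.finrank hint,
      bd_natDegree_minpoly, an_finrank]
  have hz : z ∈ Kbar⟮ff_jF N⟯⟮bd_jNF N⟯ := by rw [htop]; exact IntermediateField.mem_top
  have hz' : z ∈ Algebra.adjoin Kbar⟮ff_jF N⟯ {bd_jNF N} := by
    rw [← IntermediateField.adjoin_simple_toSubalgebra_of_isAlgebraic hint.isAlgebraic]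
    exact hz
  rw [Algebra.adjoin_singleton_eq_range_aeval] at hz'
  obtain ⟨p, hp⟩ := hz'
  have hmonic := minpoly.monic hint
  refine ⟨p %ₘ minpoly Kbar⟮ff_jF N⟯ (bd_jNF N), ?_, ?_⟩
  · rw [← bd_natDegree_minpoly N]
    refine natDegree_modByMonic_lt p hmonic ?_
    intro h1
    have h2 := bd_natDegree_minpoly N
    rw [h1, natDegree_one] at h2
    exact absurd h2.symm (bd_card_pos N).ne'
  · rw [aeval_modByMonic_eq_self_of_root (minpoly.aeval _ _)]
    exact hp

/-- clearing denominators of finitely many elements of `Q̄(j)` -/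
theorem bd_exists_common_denom {n : ℕ} (c : Fin n → Kbar⟮ff_jF N⟯) :
    ∃ (s : Kbar[X]) (r : Fin n → Kbar[X]), s ≠ 0 ∧
      ∀ i, aeval (ff_jF N) s * (c i : Fbar N) = aeval (ff_jF N) (r i) := by
  classical
  have htr := an_transcendental N
  have h1 : ∀ i, ∃ r s : Kbar[X], s ≠ 0 ∧
      (c i : Fbar N) * aeval (ff_jF N) s = aeval (ff_jF N) r := by
    intro i
    obtain ⟨r, s, h⟩ := (IntermediateField.mem_adjoin_simple_iff Kbar (c i : Fbar N)).mp (c i).2
    by_cases hs : s = 0
    · refine ⟨0, 1, one_ne_zero, ?_⟩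
      rw [h, hs, map_zero, div_zero, zero_mul]
    · refine ⟨r, s, hs, ?_⟩
      have hs' : aeval (ff_jF N) s ≠ 0 := fun h0 => hs ((transcendental_iff.mp htr) s h0)
      rw [h, div_mul_cancel₀ _ hs']
  choose r s hs h using h1
  refine ⟨∏ i, s i, fun i => r i * ∏ j ∈ Finset.univ.erase i, s j,
    Finset.prod_ne_zero_iff.mpr fun i _ => hs i, fun i => ?_⟩
  rw [← Finset.mul_prod_erase Finset.univ s (Finset.mem_univ i), map_mul, map_mul, ← h i]
  ring

/-- **`ℚ(j(q^d) : d ∣ N) = ℚ(j, j(q^N))`**: the prelude's `FunctionFieldGeneration N`,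
unconditionally. -/
theorem bd_functionFieldGeneration : ModularCurve.FunctionFieldGeneration N := by
  intro d hd hne
  have := hne
  obtain ⟨p, hpdeg, hp⟩ := bd_exists_poly N (barGenF N d hd)
  obtain ⟨s, r, hs0, hsr⟩ := bd_exists_common_denom N
    (fun i : Fin (Nat.card (Comb.Q N)) => p.coeff i)
  have hrelF : aeval (ff_jF N) s * barGenF N d hd =
      ∑ i : Fin (Nat.card (Comb.Q N)), aeval (ff_jF N) (r i) * (bd_jNF N) ^ (i : ℕ) := by
    rw [← hp, aeval_eq_sum_range' hpdeg, Finset.mul_sum,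
      ← Fin.sum_univ_eq_sum_range
        (fun i => aeval (ff_jF N) s * (p.coeff i • (bd_jNF N) ^ i)) (Nat.card (Comb.Q N))]
    refine Finset.sum_congr rfl fun i _ => ?_
    rw [Algebra.smul_def, ← mul_assoc]
    congr 1
    exact hsr i
  have hrelL := congrArg (bd_incl N) hrelF
  rw [map_mul, map_sum, bd_map_aeval (bd_incl N) (bd_incl_algebraMap N), bd_incl_jF] at hrelL
  have hn := bd_card_pos N
  refine bd_mem_adjoin_of_rel (f := algebraMap ℚ Kbar) (bd_polyIndep_rat N)
    (fun i => if (i : ℕ) = 0 then s else 0) r ?_ ?_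
  · intro h0
    have := congrFun h0 ⟨0, hn⟩
    simp only [if_pos, Pi.zero_apply] at this
    exact hs0 this
  · rw [← bd_barGen_one_eq, ← bd_barGen_eq, ← bd_barGen_eq]
    have hsum : ∑ i : Fin (Nat.card (Comb.Q N)),
        aeval (barGen 1) (if (i : ℕ) = 0 then s else 0) * barGen N ^ (i : ℕ)
          = aeval (barGen 1) s := by
      rw [Finset.sum_eq_single (⟨0, hn⟩ : Fin (Nat.card (Comb.Q N)))]
      · simp
      · intro i _ hi
        have : (i : ℕ) ≠ 0 := fun h => hi (Fin.ext h)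
        rw [if_neg this, map_zero, zero_mul]
      · intro h
        exact absurd (Finset.mem_univ _) h
    rw [hsum]
    rw [show bd_incl N (barGenF N d hd) = barGen d from rfl] at hrelL
    rw [hrelL]
    refine Finset.sum_congr rfl fun i _ => ?_
    rw [map_mul, map_pow, bd_map_aeval (bd_incl N) (bd_incl_algebraMap N), bd_incl_jF,
      bd_incl_jNF]

end Fermat.Agent.S28
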