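/-
S28 (Igusa), bridge lemmas for the front end (helper5), intrinsic form (inside `LaurentSeries R`):

* (K1) `bd_exists_reduced`: if `Φ(x, y) = 0` with `Φ ∈ R[X][Y]` monic of degree `n`, every element
  `P(x, y)` of `R[x][y]` is of the form `∑_{i<n} a_i(x) y^i`;
* (K2) `bd_ker_of_polyIndep`: if `f : R → k` has kernel `(ℓ)` and `1, y, …, y^(n-1)` are independent
  over `k[x]` after reduction, then a reduced element `∑ a_i(x) y^i` which vanishes after reduction
  has all `a_i` divisible by `ℓ`; hence the kernel of the reduction on `R[x][y]` is `ℓ • R[x][y]`;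
* (K3) `bd_polyIndep_inv`: independence of `1, y, …` over `R[x]` implies independence of
  `1, y x'^M, …` over `R[x']` when `x x' = 1` (the chart at infinity).
-/
import Mathlib
import Fermat.Agent.S28.Bridge.Indep

set_option autoImplicit false

open ModularCurve Polynomial

namespace Fermat.Agent.S28

/-! ### (K1) reduced form -/

section Reduced

variable {R : Type*} [CommRing R] {A : Type*} [CommRing A] [Algebra R A]

/-- evaluation of a two-variable polynomial `P ∈ R[X][Y]` at `(x, y)` -/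
noncomputable def bd_eval₂ (x y : A) : R[X][X] →+* A :=
  Polynomial.eval₂RingHom (aeval x).toRingHom y

theorem bd_eval₂_apply (x y : A) (P : R[X][X]) :
    bd_eval₂ x y P = P.eval₂ (aeval x).toRingHom y := rfl

theorem bd_eval₂_C (x y : A) (p : R[X]) : bd_eval₂ x y (C p) = aeval x p := by
  rw [bd_eval₂_apply, eval₂_C]
  rfl

theorem bd_eval₂_X (x y : A) : bd_eval₂ (R := R) x y X = y := by
  rw [bd_eval₂_apply, eval₂_X]

theorem bd_eval₂_eq_sum (x y : A) (P : R[X][X]) {n : ℕ} (hn : P.natDegree < n) :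
    bd_eval₂ x y P = ∑ i : Fin n, aeval x (P.coeff i) * y ^ (i : ℕ) := by
  rw [bd_eval₂_apply, eval₂_eq_sum_range' _ hn,
    ← Fin.sum_univ_eq_sum_range (fun i => (aeval x).toRingHom (P.coeff i) * y ^ i) n]
  rfl

/-- (K1) every element of `R[x][y]` is reduced modulo a monic relation -/
theorem bd_exists_reduced (x y : A) (Φ : R[X][X]) (hΦ : Φ.Monic)
    (hroot : Φ.eval₂ (aeval x).toRingHom y = 0) (P : R[X][X]) :
    ∃ a : Fin Φ.natDegree → R[X],
      P.eval₂ (aeval x).toRingHom y = ∑ i, aeval x (a i) * y ^ (i : ℕ) := by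
  by_cases h1 : Φ = 1
  · -- then `1 = 0` in `A`
    have h10 : (1 : A) = 0 := by
      rw [h1, eval₂_one] at hroot
      exact hroot
    refine ⟨fun _ => 0, ?_⟩
    rw [eq_comm, ← mul_one (∑ i, _), h10, mul_zero, ← mul_one (eval₂ _ _ _), h10, mul_zero]
  · refine ⟨fun i => (P %ₘ Φ).coeff i, ?_⟩
    have hdeg : (P %ₘ Φ).natDegree < Φ.natDegree := natDegree_modByMonic_lt P hΦ h1
    have h2 := bd_eval₂_eq_sum x y (P %ₘ Φ) hdeg
    rw [bd_eval₂_apply] at h2
    rw [← h2]
    have h3 : P = P %ₘ Φ + Φ * (P /ₘ Φ) := (modByMonic_add_div P Φ).symm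
    conv_lhs => rw [h3]
    rw [eval₂_add, eval₂_mul, hroot, zero_mul, add_zero]

end Reduced

/-! ### (K2) the kernel of the reduction -/

section Kernel

variable {R k : Type*} [CommRing R] [Field k]

/-- (K2) a reduced element which dies under reduction has all coefficients divisible by `ℓ` -/
theorem bd_ker_of_polyIndep (f : R →+* k) (l : R) (hker : ∀ r, f r = 0 ↔ ∃ r', r = l * r')
    {x y : LaurentSeries R} {n : ℕ}
    (hind : bd_PolyIndep k (coeffMap f x) (coeffMap f y) n) (a : Fin n → R[X])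
    (h0 : coeffMap f (∑ i, aeval x (a i) * y ^ (i : ℕ)) = 0) :
    ∃ a' : Fin n → R[X], ∀ i, a i = C l * a' i := by
  have h1 : (fun i => (a i).map f) = 0 := by
    refine hind _ ?_
    rw [← h0, map_sum]
    exact Finset.sum_congr rfl fun i _ => by rw [map_mul, map_pow, bd_coeffMap_aeval]
  have h2 : ∀ i, C l ∣ a i := by
    intro i
    rw [C_dvd_iff_dvd_coeff]
    intro m
    have h3 : f ((a i).coeff m) = 0 := by
      have := congrArg (fun p : k[X] => p.coeff m) (congrFun h1 i)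
      simpa using this
    obtain ⟨r', hr'⟩ := (hker _).mp h3
    exact ⟨r', hr'⟩
  choose a' ha' using h2
  exact ⟨a', ha'⟩

/-- **`ker(reduction) = ℓ • R[x][y]`**: if `Φ(x,y) = 0`, `Φ` monic of degree `n`, and
`1, ȳ, …, ȳ^(n-1)` are independent over `k[x̄]`, then any `P(x,y)` with zero reduction is
`ℓ • P'(x,y)`. -/
theorem bd_ker_reduction (f : R →+* k) (l : R) (hker : ∀ r, f r = 0 ↔ ∃ r', r = l * r')
    {x y : LaurentSeries R} (Φ : R[X][X]) (hΦ : Φ.Monic)
    (hroot : Φ.eval₂ (aeval x).toRingHom y = 0)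
    (hind : bd_PolyIndep k (coeffMap f x) (coeffMap f y) Φ.natDegree) (P : R[X][X])
    (h0 : coeffMap f (P.eval₂ (aeval x).toRingHom y) = 0) :
    ∃ P' : R[X][X], P.eval₂ (aeval x).toRingHom y
      = HahnSeries.C l * P'.eval₂ (aeval x).toRingHom y := by
  obtain ⟨a, ha⟩ := bd_exists_reduced x y Φ hΦ hroot P
  rw [ha] at h0
  obtain ⟨a', ha'⟩ := bd_ker_of_polyIndep f l hker hind a h0
  refine ⟨∑ i : Fin Φ.natDegree, C (a' i) * X ^ (i : ℕ), ?_⟩
  rw [ha, ← bd_eval₂_apply, map_sum, Finset.mul_sum]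
  refine Finset.sum_congr rfl fun i _ => ?_
  rw [map_mul, map_pow, bd_eval₂_C, bd_eval₂_X, ha' i, map_mul, aeval_C, bd_algebraMap_eq_C,
    mul_assoc]

end Kernel

/-! ### (K3) the chart at infinity -/

section Infinity

variable {R : Type*} [CommRing R] {A : Type*} [CommRing A] [Algebra R A]

/-- `x^m * p(x') = (reflect m p)(x)` when `x x' = 1` and `deg p ≤ m` -/
theorem bd_pow_mul_aeval_inv {x x' : A} (hxx' : x * x' = 1) (p : R[X]) {m : ℕ}
    (hm : p.natDegree ≤ m) : x ^ m * aeval x' p = aeval x (p.reflect m) := by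
  rw [aeval_eq_sum_range' (Nat.lt_succ_of_le hm), Finset.mul_sum]
  have h2 : (p.reflect m).natDegree < m + 1 :=
    Nat.lt_succ_of_le ((natDegree_le_iff_coeff_eq_zero).mpr fun k hk => by
      rw [coeff_reflect, revAt_eq_self_of_lt hk]
      exact coeff_eq_zero_of_natDegree_lt (lt_of_le_of_lt hm hk))
  rw [aeval_eq_sum_range' h2, ← Finset.sum_flip]
  refine Finset.sum_congr rfl fun k hk => ?_
  have hk' : k ≤ m := Nat.lt_succ_iff.mp (Finset.mem_range.mp hk)
  rw [coeff_reflect, revAt_le hk', Algebra.smul_def, Algebra.smul_def]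
  have h3 : x ^ m = x ^ k * x ^ (m - k) := by rw [← pow_add, Nat.add_sub_cancel' hk']
  rw [h3]
  calc x ^ k * x ^ (m - k) * (algebraMap R A (p.coeff (m - k)) * x' ^ (m - k))
      = algebraMap R A (p.coeff (m - k)) * x ^ k * (x * x') ^ (m - k) := by rw [mul_pow]; ring
    _ = algebraMap R A (p.coeff (m - k)) * x ^ k := by rw [hxx', one_pow, mul_one]

/-- (K3) **independence at infinity**: if `1, y, …, y^(n-1)` are independent over `R[x]` and
`x x' = 1`, then `1, y x'^M, …, (y x'^M)^(n-1)` are independent over `R[x']`. -/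
theorem bd_polyIndep_inv {x x' y : A} (hxx' : x * x' = 1) (M : ℕ) {n : ℕ}
    (h : bd_PolyIndep R x y n) : bd_PolyIndep R x' (y * x' ^ M) n := by
  intro a ha
  set D : ℕ := (Finset.univ.sup fun i : Fin n => (a i).natDegree + M * (i : ℕ)) with hD
  have hle : ∀ i : Fin n, (a i).natDegree + M * (i : ℕ) ≤ D := fun i =>
    Finset.le_sup (f := fun i : Fin n => (a i).natDegree + M * (i : ℕ)) (Finset.mem_univ i)
  have key := h (fun i => (a i).reflect (D - M * (i : ℕ))) ?_
  · funext i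
    have h1 : (a i).reflect (D - M * (i : ℕ)) = 0 := congrFun key i
    exact reflect_eq_zero_iff.mp h1
  · have h4 : x ^ D * ∑ i, aeval x' (a i) * (y * x' ^ M) ^ (i : ℕ) = 0 := by rw [ha, mul_zero]
    rw [← h4, Finset.mul_sum]
    refine Finset.sum_congr rfl fun i _ => ?_
    have hi := hle i
    have hdeg : (a i).natDegree ≤ D - M * (i : ℕ) := by omega
    rw [← bd_pow_mul_aeval_inv hxx' (a i) hdeg]
    have h5 : x ^ D = x ^ (D - M * (i : ℕ)) * x ^ (M * (i : ℕ)) := by
      rw [← pow_add, Nat.sub_add_cancel (by omega)]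
    rw [h5, mul_pow, ← pow_mul]
    calc x ^ (D - M * ↑i) * aeval x' (a i) * y ^ (i : ℕ)
        = x ^ (D - M * ↑i) * aeval x' (a i) * y ^ (i : ℕ) * (x * x') ^ (M * (i : ℕ)) := by
          rw [hxx', one_pow, mul_one]
      _ = _ := by rw [mul_pow]; ring

/-! ### (K4) the monic relation at infinity -/

/-- the transform of `Φ ∈ R[X][Y]` (monic of degree `n` in `Y`) for the chart at infinity:
`Φ_∞(X', Y') = X'^(M n) Φ(1/X', Y'/X'^M)`, i.e. the `Y'^i`-coefficient is the reflection of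
`Φ.coeff i` at level `M (n - i)`. -/
noncomputable def bd_PhiInf (Φ : R[X][X]) (M : ℕ) : R[X][X] :=
  ∑ i ∈ Finset.range (Φ.natDegree + 1),
    C ((Φ.coeff i).reflect (M * (Φ.natDegree - i))) * X ^ i

theorem bd_PhiInf_coeff (Φ : R[X][X]) (M : ℕ) {i : ℕ} (hi : i ≤ Φ.natDegree) :
    (bd_PhiInf Φ M).coeff i = (Φ.coeff i).reflect (M * (Φ.natDegree - i)) := by
  simp only [bd_PhiInf, finsetSum_coeff, coeff_C_mul, coeff_X_pow]
  rw [Finset.sum_eq_single i]
  · simp
  · intro j _ hji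
    rw [if_neg (fun h => hji h.symm), mul_zero]
  · intro h
    exact absurd (Finset.mem_range.mpr (Nat.lt_succ_of_le hi)) h

theorem bd_PhiInf_natDegree_le (Φ : R[X][X]) (M : ℕ) :
    (bd_PhiInf Φ M).natDegree ≤ Φ.natDegree := by
  refine natDegree_sum_le_of_forall_le _ _ fun i hi => ?_
  exact (natDegree_C_mul_X_pow_le _ _).trans (Nat.lt_succ_iff.mp (Finset.mem_range.mp hi))

theorem bd_PhiInf_monic {Φ : R[X][X]} (hΦ : Φ.Monic) (M : ℕ) : (bd_PhiInf Φ M).Monic := by
  refine monic_of_natDegree_le_of_coeff_eq_one Φ.natDegree (bd_PhiInf_natDegree_le Φ M) ?_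
  rw [bd_PhiInf_coeff Φ M le_rfl, hΦ.coeff_natDegree, Nat.sub_self, Nat.mul_zero]
  ext k
  rw [coeff_reflect]
  rcases Nat.eq_zero_or_pos k with rfl | hk
  · rw [revAt_le le_rfl]
  · rw [revAt_eq_self_of_lt hk]

theorem bd_PhiInf_natDegree [Nontrivial R] {Φ : R[X][X]} (hΦ : Φ.Monic) (M : ℕ) :
    (bd_PhiInf Φ M).natDegree = Φ.natDegree := by
  refine le_antisymm (bd_PhiInf_natDegree_le Φ M) ?_
  refine le_natDegree_of_ne_zero ?_
  rw [bd_PhiInf_coeff Φ M le_rfl, hΦ.coeff_natDegree, Nat.sub_self, Nat.mul_zero]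
  intro h
  have := reflect_eq_zero_iff.mp h
  exact one_ne_zero this

/-- a bound `M` for the `X`-degrees of the coefficients of a monic `Φ` satisfies the hypothesis of
`bd_PhiInf_root` -/
theorem bd_natDegree_coeff_le {Φ : R[X][X]} (hΦ : Φ.Monic) {M : ℕ}
    (hM : ∀ i, (Φ.coeff i).natDegree ≤ M) (i : ℕ) :
    (Φ.coeff i).natDegree ≤ M * (Φ.natDegree - i) := by
  rcases lt_trichotomy i Φ.natDegree with h | h | h
  · calc (Φ.coeff i).natDegree ≤ M := hM i
      _ = M * 1 := (mul_one M).symm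
      _ ≤ M * (Φ.natDegree - i) := Nat.mul_le_mul_left M (by omega)
  · rw [h, hΦ.coeff_natDegree, natDegree_one]
    exact Nat.zero_le _
  · rw [coeff_eq_zero_of_natDegree_lt h, natDegree_zero]
    exact Nat.zero_le _

/-- (K4) `Φ_∞(x', y x'^M) = x'^(M n) Φ(x, y) = 0` -/
theorem bd_PhiInf_root {x x' y : A} (hxx' : x * x' = 1) {Φ : R[X][X]} {M : ℕ}
    (hM : ∀ i, (Φ.coeff i).natDegree ≤ M * (Φ.natDegree - i))
    (hroot : Φ.eval₂ (aeval x).toRingHom y = 0) :
    (bd_PhiInf Φ M).eval₂ (aeval x').toRingHom (y * x' ^ M) = 0 := by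
  have hx'x : x' * x = 1 := by rw [mul_comm]; exact hxx'
  have h1 : (bd_PhiInf Φ M).eval₂ (aeval x').toRingHom (y * x' ^ M)
      = x' ^ (M * Φ.natDegree) * Φ.eval₂ (aeval x).toRingHom y := by
    rw [eval₂_eq_sum_range' (aeval x).toRingHom (Nat.lt_succ_self Φ.natDegree),
      eval₂_eq_sum_range' (aeval x').toRingHom
        (Nat.lt_succ_of_le (bd_PhiInf_natDegree_le Φ M)), Finset.mul_sum]
    refine Finset.sum_congr rfl fun i hi => ?_
    have hi' : i ≤ Φ.natDegree := Nat.lt_succ_iff.mp (Finset.mem_range.mp hi)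
    rw [bd_PhiInf_coeff Φ M hi']
    show aeval x' ((Φ.coeff i).reflect (M * (Φ.natDegree - i))) * (y * x' ^ M) ^ i
      = x' ^ (M * Φ.natDegree) * (aeval x (Φ.coeff i) * y ^ i)
    rw [← bd_pow_mul_aeval_inv hx'x (Φ.coeff i) (hM i)]
    have h2 : x' ^ (M * Φ.natDegree) = x' ^ (M * (Φ.natDegree - i)) * x' ^ (M * i) := by
      rw [← pow_add, ← Nat.mul_add, Nat.sub_add_cancel hi']
    rw [h2, mul_pow, ← pow_mul]
    ring
  rw [h1, hroot, mul_zero]

end Infinity

end Fermat.Agent.S28
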